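import Fermat.Agent.Jac.Sep

/-!
# Removing a point is independent of the chart; local triviality along the rational point
-/

set_option autoImplicit false

universe u

noncomputable section

open TensorProduct

namespace Fermat.Agent.Jac.Abel

variable {k : Type u} [Field k] {D : CurveData k} {R R' : Type u} [CommRing R] [Algebra k R]
    [CommRing R']
  [Algebra k R']

/-- The homomorphism on the coordinate ring given by a point. -/
def pointAlg (P : (i : Fin 2) × (D.A R i →ₐ[R] R)) : D.B P.1 →ₐ[k] R :=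
  (P.2.restrictScalars k).comp Algebra.TensorProduct.includeRight

theorem pointAlg_mapPoint (φ : R →ₐ[k] R') (P : (i : Fin 2) × (D.A R i →ₐ[R] R)) :
    pointAlg (LB.mapPoint φ P) = φ.comp (pointAlg P) := by
  ext b
  show Algebra.TensorProduct.lift (AlgHom.id R' R')
    (φ.comp ((P.2.restrictScalars k).comp Algebra.TensorProduct.includeRight))
      (fun _ _ => mul_comm _ _)
      (1 ⊗ₜ b) = _
  rw [Algebra.TensorProduct.lift_tmul, map_one, one_mul]
  rfl

/-- The point given by a homomorphism on a coordinate ring. -/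
def toPoint (i : Fin 2) (σ : D.B i →ₐ[k] R) : (i : Fin 2) × (D.A R i →ₐ[R] R) :=
  ⟨i, Algebra.TensorProduct.lift (AlgHom.id R R) σ fun _ _ => mul_comm _ _⟩

theorem pointAlg_toPoint (i : Fin 2) (σ : D.B i →ₐ[k] R) : pointAlg (toPoint i σ) = σ := by
  ext b
  show Algebra.TensorProduct.lift (AlgHom.id R R) σ (fun _ _ => mul_comm _ _) (1 ⊗ₜ b) = _
  rw [Algebra.TensorProduct.lift_tmul, map_one]
  exact one_mul _

theorem toPoint_pointAlg (P : (i : Fin 2) × (D.A R i →ₐ[R] R)) : toPoint P.1 (pointAlg P) = P := by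
  obtain ⟨i, σ⟩ := P
  simp only [toPoint, Sigma.mk.injEq, heq_eq_eq, true_and]
  refine Algebra.TensorProduct.ext (by ext) ?_
  ext b
  simp [pointAlg]

section Overlap

variable (N : LB D R) (σ₀₁ : D.A01 R →ₐ[R] R)

/-- A point of the overlap in a chart. -/
def overlapPoint (i : Fin 2) : (i : Fin 2) × (D.A R i →ₐ[R] R) := ⟨i, σ₀₁.comp (D.resR R i)⟩

theorem exists_pow_smul_mem_point (i : Fin 2) {m : N.M}
    (hm : m ∈ RingHom.ker σ₀₁ • (⊤ : Submodule (D.A01 R) N.M)) :
    ∃ n : ℕ, D.tR R i ^ n • m ∈ N.pointLattice i (σ₀₁.comp (D.resR R i)) := by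
  induction hm using Submodule.smul_induction_on' with
  | smul a ha x _ =>
    obtain ⟨n, hn⟩ := N.exists_pow_smul_mem i x
    obtain ⟨n', y, hy⟩ := CurveData.exists_pow_mul_eq i a
    refine ⟨n + n', ?_⟩
    have h : D.tR R i ^ (n + n') • a • x = y • D.tR R i ^ n • x := by
      simp only [← algebraMap_smul (D.A01 R) (_ : D.A R i), ← mul_smul, ← hy, pow_add, map_mul]
      congr 1
      simp only [map_pow]
      ring
    rw [h]
    refine Submodule.smul_mem_smul ?_ hn
    show σ₀₁ (algebraMap (D.A R i) (D.A01 R) y) = 0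
    rw [← hy, map_mul, RingHom.mem_ker.mp ha, mul_zero]
  | add x _ y _ hx hy =>
    obtain ⟨n, hn⟩ := hx
    obtain ⟨n', hn'⟩ := hy
    refine ⟨n + n', ?_⟩
    rw [smul_add]
    refine add_mem ?_ ?_
    · rw [pow_add, mul_comm, mul_smul]; exact Submodule.smul_mem _ _ hn
    · rw [pow_add, mul_smul]; exact Submodule.smul_mem _ _ hn'

theorem span_pointLattice (i : Fin 2) :
    Submodule.span (D.A01 R) (N.pointLattice i (σ₀₁.comp (D.resR R i)) : Set N.M) =
      RingHom.ker σ₀₁ • (⊤ : Submodule (D.A01 R) N.M) := by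
  refine le_antisymm (Submodule.span_le.mpr fun m hm => ?_) fun m hm => ?_
  · induction hm using Submodule.smul_induction_on' with
    | smul a ha x _ =>
      rw [← algebraMap_smul (D.A01 R) a x]
      exact Submodule.smul_mem_smul (show σ₀₁ _ = 0 from ha) trivial
    | add x _ y _ hx hy => exact add_mem hx hy
  · obtain ⟨n, hn⟩ := exists_pow_smul_mem_point N σ₀₁ i hm
    obtain ⟨w, hw⟩ := ((CurveData.isUnit_tR (D := D) (R := R) i).pow n).exists_left_inv
    have h : m = w • D.tR R i ^ n • m := by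
      rw [← algebraMap_smul (D.A01 R) (D.tR R i ^ n) m, ← mul_smul, map_pow, hw, one_smul]
    rw [h]
    exact Submodule.smul_mem _ _ (Submodule.subset_span hn)

theorem mem_pointLattice (i : Fin 2) {m : N.M}
    (hm : m ∈ RingHom.ker σ₀₁ • (⊤ : Submodule (D.A01 R) N.M)) (hi : m ∈ N.L i) :
    m ∈ N.pointLattice i (σ₀₁.comp (D.resR R i)) := by
  obtain ⟨n, hn⟩ := exists_pow_smul_mem_point N σ₀₁ i hm
  set σ := σ₀₁.comp (D.resR R i)
  set v := σ (D.tR R i ^ n)
  have hv : IsUnit v := by
    simp only [v, σ, map_pow]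
    exact ((CurveData.isUnit_tR (D := D) (R := R) i).map σ₀₁).pow n
  obtain ⟨w, hw⟩ := hv.exists_left_inv
  have h1 : (D.tR R i ^ n - algebraMap R (D.A R i) v) • m ∈ N.pointLattice i σ :=
    Submodule.smul_mem_smul
      (RingHom.mem_ker.mpr (by rw [map_sub, AlgHom.commutes]; exact sub_self v)) hi
  have h2 := sub_mem hn h1
  rw [← sub_smul, sub_sub_cancel] at h2
  have h3 := Submodule.smul_mem _ (algebraMap R (D.A R i) w) h2
  rwa [← mul_smul, ← map_mul, hw, map_one, one_smul] at h3

theorem isomorphic_subBundle {i j : Fin 2} {S : Submodule (D.A R i) N.M}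
    {S' : Submodule (D.A R j) N.M} (h : N.IsSubLattice i S) (h' : N.IsSubLattice j S')
    (e : Submodule.span (D.A01 R) (S : Set N.M) = Submodule.span (D.A01 R) (S' : Set N.M))
    (hi : ∀ m ∈ Submodule.span (D.A01 R) (S : Set N.M), m ∈ N.L i → m ∈ S)
    (hj : ∀ m ∈ Submodule.span (D.A01 R) (S : Set N.M), m ∈ N.L j → m ∈ S') :
    (N.subBundle i S h).Isomorphic (N.subBundle j S' h') := by
  refine ⟨⟨LinearEquiv.ofEq _ _ e, fun l m => ⟨fun hm => ?_, fun hm => ?_⟩⟩⟩
  · obtain ⟨hm, -⟩ := hm
    refine ⟨hm, fun el => ?_⟩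
    subst el
    exact hi _ m.2 hm
  · obtain ⟨hm, -⟩ := hm
    refine ⟨hm, fun el => ?_⟩
    subst el
    exact hj _ m.2 hm

/-- Removing a point of the overlap does not depend on the chart. -/
theorem subPoint_overlap (i j : Fin 2) :
    (N.subPoint (overlapPoint σ₀₁ i)).Isomorphic (N.subPoint (overlapPoint σ₀₁ j)) :=
  isomorphic_subBundle N (N.isSubLattice_point i _) (N.isSubLattice_point j _)
    ((span_pointLattice N σ₀₁ i).trans (span_pointLattice N σ₀₁ j).symm)
    (fun _ hm hi => mem_pointLattice N σ₀₁ i (span_pointLattice N σ₀₁ i ▸ hm) hi)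
    (fun _ hm hj => mem_pointLattice N σ₀₁ j (span_pointLattice N σ₀₁ i ▸ hm) hj)

end Overlap

/-- A bundle is trivial along the rational point near every point of the base. -/
theorem exists_evTrivial (L : LB D R) (p : PrimeSpectrum R) :
    ∃ r : R, r ∉ p.asIdeal ∧ ∀ (L' : LB D (Localization.Away r)),
      LB.Mor (IsScalarTower.toAlgHom k R (Localization.Away r)) L L' → L'.EvTrivial := by
  let := (D.evR R).toRingHom.toAlgebra
  -- The restriction along the rational point is invertible, hence free on some `D(r)` at `p`.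
  obtain ⟨s, hs, hfree⟩ := Module.Invertible.exists_finset_free_localization R (R ⊗[D.A R 0] L.L 0)
  obtain ⟨r, hrs, hrp⟩ : ∃ r ∈ s, r ∉ p.asIdeal := by
    by_contra h
    push Not at h
    exact p.isPrime.ne_top (eq_top_iff.mpr (hs ▸ Ideal.span_le.mpr h))
  refine ⟨r, hrp, fun L' g => ?_⟩
  have := hfree r hrs
  obtain ⟨e⟩ := Module.Invertible.free_iff_linearEquiv.mp this
  let q : R ⊗[D.A R 0] L.L 0 →ₗ[R] Localization.Away r :=
    (e.toLinearMap.restrictScalars R).comp (LocalizedModule.mkLinearMap (Submonoid.powers r) _)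
  let ψ₀ : L.L 0 →+ Localization.Away r :=
    q.toAddMonoidHom.comp (TensorProduct.mk (D.A R 0) R (L.L 0) 1).toAddMonoidHom
  let : Module (D.A (Localization.Away r) 0) (Localization.Away r) :=
    Module.compHom _ (D.evR (Localization.Away r)).toRingHom
  have hψ : ∀ a m, ψ₀ (a • m) =
      (D.mapA (IsScalarTower.toAlgHom k R (Localization.Away r)) 0).toRingHom a • ψ₀ m := by
    intro a m
    show q (1 ⊗ₜ (a • m)) = D.evR _ (D.mapA _ 0 a) * q (1 ⊗ₜ m)
    rw [CurveData.evR_mapA, TensorProduct.tmul_smul, TensorProduct.smul_tmul', Algebra.smul_def,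
      mul_one,
      show (algebraMap (D.A R 0) R a) ⊗ₜ[D.A R 0] m = D.evR R a • ((1 : R) ⊗ₜ[D.A R 0] m) by
        rw [TensorProduct.smul_tmul', smul_eq_mul, mul_one]; rfl,
      map_smul, Algebra.smul_def]
    rfl
  -- Its trivialisation lifts to the base changed lattice.
  obtain ⟨h, hh⟩ := Sep.exists_lift _ (Sep.latticeMap g 0) (Sep.latticeMap_smul g 0)
    (Sep.span_latticeMap g 0) ψ₀ hψ
  refine ⟨h.toAddMonoidHom, fun a m => h.map_smul a m, fun y => ?_⟩
  have hstab : ∀ (z : Localization.Away r) (x : L'.L 0),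
      h (algebraMap _ (D.A (Localization.Away r) 0) z • x) = z * h x := fun z x => by
    rw [h.map_smul]
    show D.evR _ (algebraMap _ _ z) * h x = z * h x
    rw [AlgHom.commutes]
    rfl
  have hq : ∀ x, ∃ z, h z = q x := by
    intro x
    induction x with
    | zero => exact ⟨0, by simp⟩
    | tmul v m =>
      refine ⟨algebraMap _ (D.A (Localization.Away r) 0) (algebraMap R (Localization.Away r) v) •
        Sep.latticeMap g 0 m,
          ?_⟩
      rw [hstab, hh]
      refine (Algebra.smul_def v _).symm.trans ?_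
      show v • q (1 ⊗ₜ m) = q (v ⊗ₜ m)
      rw [← map_smul, TensorProduct.smul_tmul', smul_eq_mul, mul_one]
    | add x x' hx hx' =>
      obtain ⟨z, hz⟩ := hx
      obtain ⟨z', hz'⟩ := hx'
      exact ⟨z + z', by rw [map_add, hz, hz', map_add]⟩
  -- It is onto, as fractions with powers of `r` are allowed.
  obtain ⟨⟨x, n⟩, hx⟩ := IsLocalizedModule.surj (Submonoid.powers r)
    (LocalizedModule.mkLinearMap (Submonoid.powers r) (R ⊗[D.A R 0] L.L 0)) (e.symm y)
  obtain ⟨z, hz⟩ := hq x
  obtain ⟨w, hw⟩ := (IsLocalization.map_units (Localization.Away r) n).exists_left_inv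
  refine ⟨algebraMap _ (D.A (Localization.Away r) 0) w • z, ?_⟩
  show h (algebraMap _ _ w • z) = y
  have h1 : q x = algebraMap R _ (n : R) * y := by
    show e (LocalizedModule.mkLinearMap _ _ x) = _
    rw [← hx]
    show e.toLinearMap ((n : R) • e.symm y) = _
    rw [LinearMap.map_smul_of_tower]
    simp [Algebra.smul_def]
  rw [hstab, hz, h1, ← mul_assoc, hw, one_mul]

end Fermat.Agent.Jac.Abel

end
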