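import Fermat.Agent.Jac.Scheme.Abel.Glue
import Fermat.Agent.Jac.Scheme.Abel.Point

/-!
# Rigidified classes over affine bases as line bundles, and the points of the curve in the charts
-/

set_option autoImplicit false

universe u

noncomputable section

open CategoryTheory CategoryTheory.Limits AlgebraicGeometry AlgebraicGeometry.RelPicard
  NeronModelInfra
  TensorProduct

namespace Fermat.Agent.Jac.Abel

variable {k : Type u} [Field k] {C : Scheme.{u}} {c : C ⟶ Spec (CommRingCat.of k)}
  {ε : SchemeHomOver (𝟙 (Spec (CommRingCat.of k))) c} (cov : CurveCover c ε)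
variable {R R' : Type u} [CommRing R] [Algebra k R] [CommRing R'] [Algebra k R']

include cov in
/-- Over affine bases an automorphism of a rigidified bundle trivial along the section is the
identity. -/
theorem affineRigid : AffineRigid c ε := by
  intro R _ t M e he
  let : Algebra k R := (Spec.preimage t).hom.toAlgebra
  have ht : t = specT k R := (Spec.map_preimage t).symm
  clear_value this
  subst ht
  exact cov.eq_id_of_rigSection M.L M.isInvertible M.rigidified e he

/-- The algebraic line bundle of a rigidified class over an affine base. -/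
def secOf (ξ : RigidifiedLineBundle.Classes c ε (specT k R)) : LB cov.D R :=
  cov.sec (Quotient.out ξ).L (Quotient.out ξ).isInvertible

theorem secOf_mk (M : RigidifiedLineBundle c ε (specT k R)) :
    (secOf cov (Quotient.mk _ M : RigidifiedLineBundle.Classes c ε (specT k R))).Isomorphic
      (cov.sec M.L M.isInvertible) :=
  (cov.sec_isomorphic_iff _ _ _ _).mp
    (Quotient.mk_out (s := RigidifiedLineBundle.setoid (specT k R)) M)

/-- Over an affine base a rigidified class is determined by its algebraic bundle. -/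
theorem secOf_inj {ξ ξ' : RigidifiedLineBundle.Classes c ε (specT k R)}
    (h : (secOf cov ξ).Isomorphic (secOf cov ξ')) : ξ = ξ' := by
  rw [← Quotient.out_eq ξ, ← Quotient.out_eq ξ']
  exact Quotient.sound ((cov.sec_isomorphic_iff _ _ _ _).mpr h)

theorem secOf_map (φ : R →ₐ[k] R') (ξ : RigidifiedLineBundle.Classes c ε (specT k R)) :
    Nonempty (LB.Mor φ (secOf cov ξ)
      (secOf cov (RigidifiedLineBundle.classesMap (specMapOver φ) ξ))) := by
  have h : RigidifiedLineBundle.classesMap (specMapOver φ) ξ =
      Quotient.mk _ ((Quotient.out ξ).pullbackAlong (specMapOver φ)) := by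
    conv_lhs => rw [← Quotient.out_eq ξ]
    rfl
  rw [h]
  exact ⟨(cov.secPullback φ _ (Quotient.out ξ).isInvertible).transIso
    (secOf_mk cov ((Quotient.out ξ).pullbackAlong (specMapOver φ))).some.symm⟩

theorem exists_class (E : LB cov.D R) (hE : E.EvTrivial) :
    ∃ ξ : RigidifiedLineBundle.Classes c ε (specT k R), (secOf cov ξ).Isomorphic E := by
  obtain ⟨L, hL, he⟩ := cov.exists_sec E
  exact ⟨Quotient.mk _ ⟨L, hL, (cov.rigidified_iff L hL).mpr (hE.congr he.symm)⟩,
    (secOf_mk cov _).trans he⟩

/-- The morphism to the curve given by a point of a chart. -/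
def pointMor (P : (i : Fin 2) × (cov.D.A R i →ₐ[R] R)) : SchemeHomOver (specT k R) c :=
  ⟨(specMapOver (pointAlg P)).1 ≫ cov.j P.1, by
    rw [Category.assoc, cov.j_over, (specMapOver (pointAlg P)).2]⟩

theorem pointMor_mapPoint (φ : R →ₐ[k] R') (P : (i : Fin 2) × (cov.D.A R i →ₐ[R] R)) :
    pointMor cov (LB.mapPoint φ P) = homComp (specMapOver φ) (pointMor cov P) := by
  apply Subtype.ext
  simp only [pointMor, homComp, specMapOver, pointAlg_mapPoint]
  rw [← Spec.map_comp_assoc, ← CommRingCat.ofHom_comp]
  rfl

theorem pointMor_toPoint (i : Fin 2) (σ : cov.D.B i →ₐ[k] R) :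
    (pointMor cov (toPoint i σ)).1 = (specMapOver σ).1 ≫ cov.j i := by
  simp only [pointMor, pointAlg_toPoint]
  rfl

theorem exists_point_of_range {i : Fin 2} (q : SchemeHomOver (specT k R) c)
    (hq : Set.range q.1.base ⊆ Set.range (cov.j i).base) :
    ∃ P : (i : Fin 2) × (cov.D.A R i →ₐ[R] R), pointMor cov P = q := by
  obtain ⟨σ, hσ⟩ := exists_eq_specMapOver (R := cov.D.B i) (R' := R)
    ⟨IsOpenImmersion.lift (cov.j i) q.1 hq, by
      rw [← cov.j_over, ← Category.assoc, IsOpenImmersion.lift_fac]; exact q.2⟩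
  refine ⟨toPoint i σ, Subtype.ext ?_⟩
  rw [pointMor_toPoint, ← hσ]
  exact IsOpenImmersion.lift_fac _ _ _

theorem mem_range_j (z : C) : ∃ i, z ∈ Set.range (cov.j i).base := by
  have hz : z ∈ (cov.j 0).opensRange ⊔ (cov.j 1).opensRange := cov.covers.symm ▸ trivial
  exact hz.elim (fun h => ⟨0, h⟩) fun h => ⟨1, h⟩

theorem exists_point {K : Type u} [Field K] [Algebra k K] (q : SchemeHomOver (specT k K) c) :
    ∃ P : (i : Fin 2) × (cov.D.A K i →ₐ[K] K), pointMor cov P = q := by
  obtain ⟨i, hi⟩ := mem_range_j cov (q.1.base default)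
  refine exists_point_of_range cov q (i := i) ?_
  rintro _ ⟨z, rfl⟩
  rwa [Unique.eq_default z]

/-- Points with the same morphism to the curve remove the same point from every bundle. -/
theorem isomorphic_subPoint (N : LB cov.D R) {P Q : (i : Fin 2) × (cov.D.A R i →ₐ[R] R)}
    (h : pointMor cov P = pointMor cov Q) : (N.subPoint P).Isomorphic (N.subPoint Q) := by
  -- Points of different charts with the same image factor through a point of the overlap.
  have hov : ∀ (σ : cov.D.B 0 →ₐ[k] R) (τ : cov.D.B 1 →ₐ[k] R),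
      pointMor cov (toPoint 0 σ) = pointMor cov (toPoint 1 τ) →
        (N.subPoint (toPoint 0 σ)).Isomorphic (N.subPoint (toPoint 1 τ)) := by
    intro σ τ hστ
    have h' : (specMapOver σ).1 ≫ cov.j 0 = (specMapOver τ).1 ≫ cov.j 1 := by
      rw [← pointMor_toPoint, ← pointMor_toPoint, hστ]
    obtain ⟨ψ, hψ⟩ := Spec.map_surjective (cov.overlap.lift (specMapOver σ).1 (specMapOver τ).1 h')
    have h0 : ψ.hom.comp (cov.D.res 0).toRingHom = σ.toRingHom := by
      have := congrArg Spec.preimage
        (hψ ▸ cov.overlap.lift_fst (specMapOver σ).1 (specMapOver τ).1 h' :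
        Spec.map ψ ≫ _ = _)
      simp only [specMapOver, ← Spec.map_comp, Spec.preimage_map] at this
      exact congrArg CommRingCat.Hom.hom this
    have h1 : ψ.hom.comp (cov.D.res 1).toRingHom = τ.toRingHom := by
      have := congrArg Spec.preimage
        (hψ ▸ cov.overlap.lift_snd (specMapOver σ).1 (specMapOver τ).1 h' :
        Spec.map ψ ≫ _ = _)
      simp only [specMapOver, ← Spec.map_comp, Spec.preimage_map] at this
      exact congrArg CommRingCat.Hom.hom this
    let ψ' : cov.D.B01 →ₐ[k] R :=
      ⟨ψ.hom, fun a => by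
        rw [← (cov.D.res 0).commutes a]
        exact (RingHom.congr_fun h0 _).trans (σ.commutes a)⟩
    let σ₀₁ : cov.D.A01 R →ₐ[R] R := Algebra.TensorProduct.lift (AlgHom.id R R) ψ' fun _ _ =>
      mul_comm _ _
    have e : ∀ (i : Fin 2) (α : cov.D.B i →ₐ[k] R), ψ.hom.comp (cov.D.res i).toRingHom =
        α.toRingHom →
        toPoint i α = overlapPoint σ₀₁ i := by
      intro i α hα
      simp only [toPoint, overlapPoint, Sigma.mk.injEq, heq_eq_eq, true_and]
      refine Algebra.TensorProduct.ext (by ext) ?_
      ext b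
      simp [σ₀₁, ψ', CurveData.resR]
      exact (RingHom.congr_fun hα b).symm
    rw [e 0 σ h0, e 1 τ h1]
    exact subPoint_overlap N σ₀₁ 0 1
  -- Points of the same chart with the same image are equal.
  have hsame : ∀ (i : Fin 2) (σ τ : cov.D.B i →ₐ[k] R),
      pointMor cov (toPoint i σ) = pointMor cov (toPoint i τ) → σ = τ := by
    intro i σ τ hστ
    have h' := congrArg Subtype.val hστ
    rw [pointMor_toPoint, pointMor_toPoint, cancel_mono] at h'
    ext b
    exact congr($(Spec.map_injective h').hom b)
  rw [← toPoint_pointAlg P, ← toPoint_pointAlg Q] at h ⊢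
  generalize pointAlg P = σ at h ⊢
  generalize pointAlg Q = τ at h ⊢
  revert σ τ
  generalize P.1 = i
  generalize Q.1 = j
  intro σ τ h
  fin_cases i <;> fin_cases j
  · rw [hsame _ σ τ h]; exact LB.Isomorphic.refl _
  · exact hov σ τ h
  · exact (hov τ σ h.symm).symm
  · rw [hsame _ σ τ h]; exact LB.Isomorphic.refl _

end Fermat.Agent.Jac.Abel

end
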