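import Fermat.Agent.Jac.Scheme.Abel.Rigidified

/-!
# Algebraic equivalence to zero is degree zero
-/

set_option autoImplicit false

universe u

noncomputable section

open CategoryTheory CategoryTheory.Limits AlgebraicGeometry AlgebraicGeometry.RelPicard
  NeronModelInfra
  TensorProduct

namespace Fermat.Agent.Jac.Abel

variable {k : Type u} [Field k] {C : Scheme.{u}} {c : C ⟶ Spec (CommRingCat.of k)}
  {ε : SchemeHomOver (𝟙 (Spec (CommRingCat.of k))) c} (cov : CurveCover c ε)

@[reassoc]
theorem baseChangeSnd_fst {R : Type u} [CommRing R] {X T T' : Scheme.{u}}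
    (x : X ⟶ Spec (CommRingCat.of R)) {t : T ⟶ Spec (CommRingCat.of R)}
    {t' : T' ⟶ Spec (CommRingCat.of R)} (s : SchemeHomOver t' t) :
    baseChangeSnd x s ≫ pullback.fst x t = pullback.fst x t' :=
  (pullback.lift_fst _ _ _).trans (Category.comp_id _)

@[reassoc]
theorem baseChangeSnd_snd {R : Type u} [CommRing R] {X T T' : Scheme.{u}}
    (x : X ⟶ Spec (CommRingCat.of R)) {t : T ⟶ Spec (CommRingCat.of R)}
    {t' : T' ⟶ Spec (CommRingCat.of R)} (s : SchemeHomOver t' t) :
    baseChangeSnd x s ≫ pullback.snd x t = pullback.snd x t' ≫ s.1 :=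
  pullback.lift_snd _ _ _

/-- The degree of an invertible sheaf on the curve over a field, depending only on its isomorphism
class. -/
theorem deg_sec_congr {K : Type u} [Field K] [Algebra k K]
    {L L' : (pullback c (specT k K)).Modules} (hL : Scheme.Modules.IsInvertible L)
    (hL' : Scheme.Modules.IsInvertible L') (e : L ≅ L') :
    (cov.sec L hL).deg = (cov.sec L' hL').deg :=
  LB.deg_congr ((cov.sec_isomorphic_iff L L' hL hL').mp ⟨e⟩)

theorem deg_sec_of_iso_unit {K : Type u} [Field K] [IsAlgClosed K] [Algebra k K]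
    {L : (pullback c (specT k K)).Modules} (hL : Scheme.Modules.IsInvertible L)
    (e : L ≅ SheafOfModules.unit (pullback c (specT k K)).ringCatSheaf) :
    (cov.sec L hL).deg = 0 := by
  rw [deg_sec_congr cov hL (Scheme.Modules.isInvertible_unit _) e, LB.deg_congr cov.sec_unit,
    LB.deg_unit]

/-- Pull-backs along a composite. -/
def pullbackHomComp {T T' T'' : Scheme.{u}} {t : T ⟶ Spec (CommRingCat.of k)}
    {t' : T' ⟶ Spec (CommRingCat.of k)} {t'' : T'' ⟶ Spec (CommRingCat.of k)}
    (h : SchemeHomOver t'' t') (g : SchemeHomOver t' t) (L : (pullback c t).Modules) :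
    (Scheme.Modules.pullback (baseChangeSnd c h)).obj
      ((Scheme.Modules.pullback (baseChangeSnd c g)).obj L) ≅
      (Scheme.Modules.pullback (baseChangeSnd c (homComp h g))).obj L :=
  (Scheme.Modules.pullbackComp _ _).app L ≪≫
    (Scheme.Modules.pullbackCongr (baseChangeSnd_comp c g h)).app L

/-- Over an irreducible base the degree of the fibres is constant. -/
theorem deg_fibre_eq {T : Scheme.{u}} [IrreducibleSpace T] (t : T ⟶ Spec (CommRingCat.of k))
    (L : (pullback c t).Modules) (hL : Scheme.Modules.IsInvertible L)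
    {K K' : Type u} [Field K] [IsAlgClosed K] [Algebra k K] [Field K'] [IsAlgClosed K']
    [Algebra k K'] (s : SchemeHomOver (specT k K) t) (s' : SchemeHomOver (specT k K') t) :
    (cov.sec ((Scheme.Modules.pullback (baseChangeSnd c s)).obj L) (hL.pullback _)).deg =
      (cov.sec ((Scheme.Modules.pullback (baseChangeSnd c s')).obj L) (hL.pullback _)).deg := by
  -- the Euler characteristic is constant on each affine open
  have hA : ∀ (R : Type u) [CommRing R] [Algebra k R] (h : SchemeHomOver (specT k R) t),
      IsOpenImmersion h.1 →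
      ∃ χ : ℤ, ∀ (K : Type u) [Field K] [IsAlgClosed K] [Algebra k K]
        (s : SchemeHomOver (specT k K) t), s.1.base default ∈ Set.range h.1.base →
          (cov.sec ((Scheme.Modules.pullback (baseChangeSnd c s)).obj L)
            (hL.pullback _)).deg = χ := by
    intro R _ _ h hh
    obtain ⟨f, hf, hχ⟩ := LB.exists_locallyConstant_chi
      (cov.sec ((Scheme.Modules.pullback (baseChangeSnd c h)).obj L) (hL.pullback _))
    by_cases hne : Nonempty (PrimeSpectrum R)
    swap
    · exact ⟨0, fun K _ _ _ s hs => (hne (hs.elim fun z _ => ⟨z⟩)).elim⟩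
    obtain ⟨p₀⟩ := hne
    refine ⟨f p₀ - (1 - cov.D.genus), fun K _ _ _ s hs => ?_⟩
    obtain ⟨φ, hφ⟩ := exists_eq_specMapOver (R := R) (R' := K)
      ⟨IsOpenImmersion.lift h.1 s.1 (by rintro _ ⟨z, rfl⟩; rwa [Unique.eq_default z]), by
        exact (congrArg (_ ≫ ·) h.2).symm.trans ((Category.assoc _ _ _).symm.trans
          ((congrArg (· ≫ t) (IsOpenImmersion.lift_fac _ _ _)).trans s.2))⟩
    have hs' : homComp (specMapOver φ) h = s := by
      rw [← hφ]
      exact Subtype.ext (IsOpenImmersion.lift_fac _ _ _)
    subst hs'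
    rw [← deg_sec_congr cov ((hL.pullback _).pullback _) _ (pullbackHomComp (specMapOver φ) h L),
      LB.deg, hχ K φ _ (cov.secPullback φ _ _), LB.chi_unit]
    congr 1
    have hpre : IsPreirreducible (Set.univ : Set (PrimeSpectrum R)) := by
      have := (PreirreducibleSpace.isPreirreducible_univ (X := T)).preimage h.1.isOpenEmbedding
      rwa [Set.preimage_univ] at this
    exact hf.apply_eq_of_isPreconnected hpre.isPreconnected trivial trivial
  obtain ⟨R, iR, jR, h, hh, hx, -⟩ := exists_affine_nhd t (s.1.base default) ⊤ trivial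
  obtain ⟨R', iR', jR', h', hh', hx', -⟩ := exists_affine_nhd t (s'.1.base default) ⊤ trivial
  obtain ⟨χ, hχ⟩ := hA R h hh
  obtain ⟨χ', hχ'⟩ := hA R' h' hh'
  obtain ⟨p, hp, hp'⟩ := nonempty_preirreducible_inter (h.1.opensRange (H := hh)).isOpen
    (h'.1.opensRange (H := hh')).isOpen ⟨_, hx⟩ ⟨_, hx'⟩
  let K'' := AlgebraicClosure (T.residueField p)
  let q : Spec (CommRingCat.of K'') ⟶ T :=
    Spec.map (CommRingCat.ofHom (algebraMap (T.residueField p) K'')) ≫ T.fromSpecResidueField p
  let : Algebra k K'' := (Spec.preimage (q ≫ t)).hom.toAlgebra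
  let sq : SchemeHomOver (specT k K'') t := ⟨q, (Spec.map_preimage _).symm⟩
  have hq : sq.1.base default = p := T.fromSpecResidueField_apply p _
  rw [hχ K s hx, hχ' K' s' hx', ← hχ K'' sq (hq.symm ▸ hp : sq.1.base default ∈ Set.range h.1.base),
    hχ' K'' sq (hq.symm ▸ hp' : sq.1.base default ∈ Set.range h'.1.base)]

variable [IsAlgClosed k] [IsProper c] [SmoothOfRelativeDimension 1 c] [IsIntegral C]

/-- A bundle on the curve over an algebraically closed field is algebraically equivalent to zero iff
its degree is zero. -/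
theorem isAlgEquivZero_iff {K : Type u} [Field K] [IsAlgClosed K] [Algebra k K]
    (L : (pullback c (specT k K)).Modules) (hL : Scheme.Modules.IsInvertible L) :
    IsAlgEquivZero (pullback.snd c (specT k K)) L ↔ (cov.sec L hL).deg = 0 := by
  set a := pullback.snd c (specT k K)
  constructor
  · rintro ⟨T', h, _, _, M, hM, t₀, t₁, ⟨e₀⟩, ⟨e₁⟩⟩
    have : IsIntegral T' := GeometricallyIntegral.isIntegral_of_subsingleton h
    -- Pull the family back to the curve over `k`: the degree is constant along its points.
    let t' := h ≫ specT k K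
    let Φ : pullback c t' ⟶ pullback a h :=
      pullback.lift (pullback.lift (pullback.fst c t') (pullback.snd c t' ≫ h)
        (by rw [Category.assoc]; exact pullback.condition)) (pullback.snd c t')
          (pullback.lift_snd _ _ _)
    let w : pullback c (specT k K) ⟶ pullback a (𝟙 _) :=
      pullback.lift (𝟙 _) a (by rw [Category.id_comp, Category.comp_id])
    let pt : SchemeHomOver (𝟙 _) h → SchemeHomOver (specT k K) t' := fun τ =>
      ⟨τ.1, by rw [← Category.assoc, τ.2, Category.id_comp]⟩
    have hsq : ∀ τ, baseChangeSnd c (pt τ) ≫ Φ = w ≫ baseChangeSnd a τ := by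
      intro τ
      have hτ := τ.2
      apply pullback.hom_ext
      · rw [Category.assoc, Category.assoc, pullback.lift_fst, baseChangeSnd_fst, pullback.lift_fst]
        apply pullback.hom_ext
        · rw [Category.assoc, pullback.lift_fst, baseChangeSnd_fst, Category.id_comp]
        · rw [Category.assoc, pullback.lift_snd, ← Category.assoc, baseChangeSnd_snd,
            Category.assoc, show (pt τ).1 ≫ h = 𝟙 _ from hτ, Category.comp_id, Category.id_comp]
      · rw [Category.assoc, Category.assoc, pullback.lift_snd, baseChangeSnd_snd, baseChangeSnd_snd,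
          ← Category.assoc, pullback.lift_snd]
    let iso : ∀ τ, (Scheme.Modules.pullback (baseChangeSnd c (pt τ))).obj
        ((Scheme.Modules.pullback Φ).obj M) ≅
        (Scheme.Modules.pullback w).obj
          ((Scheme.Modules.pullback (baseChangeSnd a τ)).obj M) := fun τ =>
      (Scheme.Modules.pullbackComp _ _).app M ≪≫ (Scheme.Modules.pullbackCongr (hsq τ)).app M ≪≫
        ((Scheme.Modules.pullbackComp _ _).app M).symm
    have h0 := deg_sec_of_iso_unit cov ((hM.pullback Φ).pullback _)
      (iso t₀ ≪≫ (Scheme.Modules.pullback w).mapIso e₀ ≪≫ Scheme.Modules.pullbackUnitIso w)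
    have hwf : w ≫ pullback.fst a (𝟙 _) = 𝟙 _ := pullback.lift_fst _ _ _
    rw [← h0, deg_fibre_eq cov t' _ (hM.pullback Φ) (pt t₀) (pt t₁)]
    exact deg_sec_congr cov _ _ (iso t₁ ≪≫ (Scheme.Modules.pullback w).mapIso e₁ ≪≫
      (Scheme.Modules.pullbackComp _ _).app L ≪≫ (Scheme.Modules.pullbackCongr hwf).app L ≪≫
      (Scheme.Modules.pullbackId _).app L).symm
  · intro hdeg
    obtain ⟨F, f, _, _, _, M, t₀, -, ⟨e₀⟩, hsurj⟩ := cov.exists_rigidifiedFamily
    obtain ⟨s₁, hs₁⟩ := hsurj K (cov.sec L hL) hdeg
    obtain ⟨e₁⟩ := (cov.sec_isomorphic_iff _ _ _ hL).mpr hs₁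
    -- Base change to `K` the rigidified family, which has every bundle of degree zero as fibre.
    let h : pullback f (specT k K) ⟶ Spec (CommRingCat.of K) := pullback.snd f (specT k K)
    let Ψ : pullback a h ⟶ pullback c f :=
      pullback.lift (pullback.fst a h ≫ pullback.fst c (specT k K))
        (pullback.snd a h ≫ pullback.fst f (specT k K))
        (by rw [Category.assoc, Category.assoc, pullback.condition, pullback.condition,
          ← Category.assoc, ← Category.assoc, pullback.condition])
    let pt : SchemeHomOver (specT k K) f → SchemeHomOver (𝟙 _) h := fun s =>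
      ⟨pullback.lift s.1 (𝟙 _) (by rw [s.2, Category.id_comp]), pullback.lift_snd _ _ _⟩
    have hsq : ∀ s, baseChangeSnd a (pt s) ≫ Ψ = pullback.fst a (𝟙 _) ≫ baseChangeSnd c s := by
      intro s
      have hc : pullback.fst a (𝟙 _) ≫ a = pullback.snd a (𝟙 _) := by
        rw [pullback.condition, Category.comp_id]
      apply pullback.hom_ext
      · rw [Category.assoc, Category.assoc, pullback.lift_fst, baseChangeSnd_fst, ← Category.assoc,
          baseChangeSnd_fst]
      · rw [Category.assoc, Category.assoc, pullback.lift_snd, baseChangeSnd_snd, ← Category.assoc,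
          baseChangeSnd_snd, Category.assoc, show (pt s).1 ≫ pullback.fst f (specT k K) = s.1 from
            pullback.lift_fst _ _ _, ← hc, Category.assoc]
    let iso : ∀ s, (Scheme.Modules.pullback (baseChangeSnd a (pt s))).obj
        ((Scheme.Modules.pullback Ψ).obj M.L) ≅
        (Scheme.Modules.pullback (pullback.fst a (𝟙 _))).obj
          ((Scheme.Modules.pullback (baseChangeSnd c s)).obj M.L) := fun s =>
      (Scheme.Modules.pullbackComp _ _).app M.L ≪≫ (Scheme.Modules.pullbackCongr (hsq s)).app M.L ≪≫
        ((Scheme.Modules.pullbackComp _ _).app M.L).symm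
    let sK : SchemeHomOver (specT k K) (𝟙 (Spec (CommRingCat.of k))) :=
      ⟨specT k K, Category.comp_id _⟩
    refine ⟨_, h, inferInstance, inferInstance, (Scheme.Modules.pullback Ψ).obj M.L,
      M.isInvertible.pullback Ψ, pt (homComp sK t₀), pt s₁, ⟨?_⟩, ⟨?_⟩⟩
    · exact iso _ ≪≫ (Scheme.Modules.pullback _).mapIso ((pullbackHomComp sK t₀ M.L).symm ≪≫
        (Scheme.Modules.pullback _).mapIso e₀ ≪≫ Scheme.Modules.pullbackUnitIso _) ≪≫
          Scheme.Modules.pullbackUnitIso _
    · exact iso _ ≪≫ (Scheme.Modules.pullback _).mapIso e₁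

/-- The fibre at a geometric point is the curve over the field. -/
theorem isAlgEquivZero_fibre_iff {T : Scheme.{u}} {t : T ⟶ Spec (CommRingCat.of k)}
    (L : (pullback c t).Modules) (hL : Scheme.Modules.IsInvertible L)
    {K : Type u} [Field K] [IsAlgClosed K] [Algebra k K] (s : SchemeHomOver (specT k K) t) :
    IsAlgEquivZero (fibreAt c t s.1)
      ((Scheme.Modules.pullback (pullback.fst (pullback.snd c t) s.1)).obj L) ↔
      (cov.sec ((Scheme.Modules.pullback (baseChangeSnd c s)).obj L) (hL.pullback _)).deg = 0 := by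
  rw [← isAlgEquivZero_iff cov]
  have hcond : (pullback.fst (pullback.snd c t) s.1 ≫ pullback.fst c t) ≫ c =
      pullback.snd (pullback.snd c t) s.1 ≫ specT k K := by
    rw [Category.assoc, pullback.condition, ← Category.assoc, pullback.condition,
      Category.assoc, s.2]
  let d₁ : pullback (pullback.snd c t) s.1 ⟶ pullback c (specT k K) := pullback.lift _ _ hcond
  let d₂ : pullback c (specT k K) ⟶ pullback (pullback.snd c t) s.1 :=
    pullback.lift (baseChangeSnd c s) (pullback.snd c (specT k K)) (pullback.lift_snd _ _ _)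
  have h1 : d₁ ≫ baseChangeSnd c s = pullback.fst (pullback.snd c t) s.1 := by
    apply pullback.hom_ext
    · rw [Category.assoc, baseChangeSnd_fst, pullback.lift_fst]
    · rw [Category.assoc, baseChangeSnd_snd, ← Category.assoc, pullback.lift_snd,
        pullback.condition]
  have h2 : d₂ ≫ pullback.fst (pullback.snd c t) s.1 = baseChangeSnd c s := pullback.lift_fst _ _ _
  constructor
  · intro h
    exact (h.pullback d₂ (pullback.lift_snd _ _ _)).of_iso
      ((Scheme.Modules.pullbackComp _ _).app L ≪≫ (Scheme.Modules.pullbackCongr h2).app L)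
  · intro h
    exact (h.pullback d₁ (pullback.lift_snd _ _ _)).of_iso
      ((Scheme.Modules.pullbackComp _ _).app L ≪≫ (Scheme.Modules.pullbackCongr h1).app L)

end Fermat.Agent.Jac.Abel

end
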