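import Fermat.Agent.Jac.Scheme.Abel.Classes

/-!
# The family obtained by removing points, one at a time, over powers of the curve
-/

set_option autoImplicit false

universe u

noncomputable section

open CategoryTheory CategoryTheory.Limits AlgebraicGeometry AlgebraicGeometry.RelPicard
  NeronModelInfra
  TensorProduct

namespace Fermat.Agent.Jac.Abel

variable {k : Type u} [Field k] [IsAlgClosed k] {C : Scheme.{u}} {c : C ⟶ Spec (CommRingCat.of k)}
  [IsProper c] [SmoothOfRelativeDimension 1 c] [IsIntegral C]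
  {ε : SchemeHomOver (𝟙 (Spec (CommRingCat.of k))) c} (cov : CurveCover c ε)

omit [IsAlgClosed k] [IsProper c] [SmoothOfRelativeDimension 1 c] [IsIntegral C] in
/-- The degree does not change under extensions of the ground field. -/
theorem deg_map {K : Type u} [Field K] [Algebra k K] {φ : k →ₐ[k] K} {N : LB cov.D k}
    {NK : LB cov.D K} (g : LB.Mor φ N NK) : NK.deg = N.deg := by
  obtain ⟨χ, -, hχ⟩ := LB.exists_locallyConstant_chi N
  unfold LB.deg
  rw [hχ K φ NK g, hχ k (AlgHom.id k k) N (LB.Mor.id N), LB.chi_unit, LB.chi_unit,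
    Subsingleton.elim (pointOf φ) (pointOf (AlgHom.id k k))]

omit [IsAlgClosed k] [IsProper c] [SmoothOfRelativeDimension 1 c] [IsIntegral C] in
/-- The composite of geometrically integral morphisms over a field, the second one being a base
change. -/
theorem geometricallyIntegral_fst_comp {F G : Scheme.{u}} (f : F ⟶ Spec (CommRingCat.of k))
    (g : G ⟶ Spec (CommRingCat.of k)) [GeometricallyIntegral f] [GeometricallyIntegral g]
    [LocallyOfFiniteType f] [Flat g] [UniversallyOpen g] :
    GeometricallyIntegral (pullback.fst f g ≫ f) := by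
  refine ⟨fun K _ y Z fst snd hP => ?_⟩
  -- `Z` is the base change of `g` to the integral scheme `F ⊗ K`
  let l : Z ⟶ pullback f y :=
    pullback.lift (fst ≫ pullback.fst f g) snd (by rw [Category.assoc, hP.w])
  have hl : IsPullback fst l (pullback.fst f g) (pullback.fst f y) :=
    IsPullback.of_bot (v₂₁ := pullback.snd f y) (v₂₂ := f) (h₃₁ := y)
      (by rw [show l ≫ pullback.snd f y = snd from pullback.lift_snd _ _ _]; exact hP)
      (pullback.lift_fst _ _ _).symm (IsPullback.of_hasPullback f y)
  have : IsIntegral (pullback f y) :=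
    pullback_of_geometrically GeometricallyIntegral.geometrically_isIntegral K y
  have : IsLocallyNoetherian (pullback f y) :=
    LocallyOfFiniteType.isLocallyNoetherian (pullback.snd f y)
  exact IsIntegral.of_isIso hl.isoPullback.inv

/-- A family of the bundles obtained from `N` by removing `m` points. -/
def HasFamily (N : LB cov.D k) (m : ℕ) : Prop :=
  ∃ (F : Scheme.{u}) (f : F ⟶ Spec (CommRingCat.of k)) (_ : IsProper f) (_ : Smooth f)
    (_ : GeometricallyIntegral f) (y : RigidifiedLineBundle.Classes c ε f),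
    (∀ (K : Type u) [Field K] [IsAlgClosed K] [Algebra k K] (s : SchemeHomOver (specT k K) f),
      (secOf cov (RigidifiedLineBundle.classesMap s y)).deg = N.deg - m) ∧
    ∀ (K : Type u) [Field K] [IsAlgClosed K] [Algebra k K] (NK : LB cov.D K),
      LB.Mor (Algebra.ofId k K) N NK → ∀ l : List ((i : Fin 2) × (cov.D.A K i →ₐ[K] K)),
      l.length = m →
        ∃ s : SchemeHomOver (specT k K) f,
          (secOf cov (RigidifiedLineBundle.classesMap s y)).Isomorphic (NK.subPoints l)

omit [IsAlgClosed k] [IsProper c] [SmoothOfRelativeDimension 1 c] [IsIntegral C] in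
theorem hasFamily_zero (N : LB cov.D k) : HasFamily cov N 0 := by
  obtain ⟨ξ, hξ⟩ := exists_class cov N (LB.evTrivial N)
  have hid : specT k k = 𝟙 (Spec (CommRingCat.of k)) := by
    simp only [specT, Algebra.algebraMap_self]
    exact Spec.map_id _
  have hsub : ∀ (K : Type u) [Field K] [Algebra k K] (s : SchemeHomOver (specT k K) (specT k k)),
      s = specMapOver (Algebra.ofId k K) := by
    intro K _ _ s
    obtain ⟨φ, rfl⟩ := exists_eq_specMapOver s
    rw [show φ = Algebra.ofId k K from AlgHom.ext fun a => φ.commutes a]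
  refine ⟨_, specT k k, hid ▸ inferInstance, hid ▸ inferInstance,
    hid ▸ geometricallyIntegral_id_Spec k, ξ,
    fun K _ _ _ s => ?_, fun K _ _ _ NK g l hl => ?_⟩
  · obtain ⟨g⟩ := secOf_map cov (Algebra.ofId k K) ξ
    rw [hsub K s, deg_map cov (g.isoTrans hξ.some.symm), Nat.cast_zero, sub_zero]
  · obtain ⟨g'⟩ := secOf_map cov (Algebra.ofId k K) ξ
    refine ⟨specMapOver (Algebra.ofId k K), ?_⟩
    rw [List.length_eq_zero_iff.mp hl]
    exact ⟨(g'.isoTrans hξ.some.symm).targetIso g⟩

theorem hasFamily_succ {N : LB cov.D k} {m : ℕ} (h : HasFamily cov N m) :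
    HasFamily cov N (m + 1) := by
  obtain ⟨F, f, hfp, hfs, hfg, y, hdeg, hsurj⟩ := h
  have : Smooth c := SmoothOfRelativeDimension.smooth 1 c
  have : GeometricallyIntegral c := geometricallyIntegral_curve c
  let f' : pullback f c ⟶ Spec (CommRingCat.of k) := pullback.fst f c ≫ f
  let p₁ : SchemeHomOver f' f := ⟨pullback.fst f c, rfl⟩
  let p₂ : SchemeHomOver f' c := ⟨pullback.snd f c, pullback.condition.symm⟩
  let E : ∀ (R : Type u) [CommRing R] [Algebra k R], SchemeHomOver (specT k R) f' → LB cov.D R :=
    fun R _ _ h => secOf cov (RigidifiedLineBundle.classesMap (homComp h p₁) y)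
  let S : ∀ (R : Type u) [CommRing R] [Algebra k R],
      SchemeHomOver (specT k R) f' → RigidifiedLineBundle.Classes c ε (specT k R) → Prop :=
    fun R _ _ h ξ => ∃ P, pointMor cov P = homComp h p₂ ∧
      (secOf cov ξ).Isomorphic ((E R h).subPoint P)
  -- the admissible bundles are compatible with base change
  have hE : ∀ (R R' : Type u) [CommRing R] [Algebra k R] [CommRing R'] [Algebra k R']
      (φ : R →ₐ[k] R')
      (h : SchemeHomOver (specT k R) f') (P : (i : Fin 2) × (cov.D.A R i →ₐ[R] R)),
      pointMor cov P = homComp h p₂ →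
        pointMor cov (LB.mapPoint φ P) = homComp (homComp (specMapOver φ) h) p₂ ∧
        Nonempty (LB.Mor φ ((E R h).subPoint P)
          ((E R' (homComp (specMapOver φ) h)).subPoint (LB.mapPoint φ P))) := by
    intro R R' _ _ _ _ φ h P hP
    refine ⟨?_, ?_⟩
    · rw [pointMor_mapPoint, hP]
      exact Subtype.ext (Category.assoc _ _ _).symm
    · obtain ⟨g⟩ := secOf_map cov φ (RigidifiedLineBundle.classesMap (homComp h p₁) y)
      rw [classesMap_comp, classesMap_congr (g' := homComp (homComp (specMapOver φ) h) p₁)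
        (Category.assoc _ _ _).symm] at g
      exact ⟨g.subPoints [P]⟩
  have hmap : ∀ (R R' : Type u) [CommRing R] [Algebra k R] [CommRing R'] [Algebra k R']
      (φ : R →ₐ[k] R')
      (h : SchemeHomOver (specT k R) f') (ξ : RigidifiedLineBundle.Classes c ε (specT k R)),
        S R h ξ →
        S R' (homComp (specMapOver φ) h) (RigidifiedLineBundle.classesMap (specMapOver φ) ξ) := by
    intro R R' _ _ _ _ φ h ξ hS
    obtain ⟨P, hP, ⟨e⟩⟩ := hS
    obtain ⟨hP', ⟨g⟩⟩ := hE R R' φ h P hP
    obtain ⟨g'⟩ := secOf_map cov φ ξ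
    exact ⟨_, hP', ⟨g'.targetIso (g.isoTrans e)⟩⟩
  have huniq : ∀ (R : Type u) [CommRing R] [Algebra k R] (h : SchemeHomOver (specT k R) f')
      (ξ ξ' : RigidifiedLineBundle.Classes c ε (specT k R)), S R h ξ → S R h ξ' → ξ = ξ' := by
    intro R _ _ h ξ ξ' hS hS'
    obtain ⟨P, hP, e⟩ := hS
    obtain ⟨P', hP', e'⟩ := hS'
    exact secOf_inj cov (e.trans ((isomorphic_subPoint cov _ (hP.trans hP'.symm)).trans e'.symm))
  have hloc : ∀ x : (pullback f c : Scheme.{u}), ∃ (R : Type u) (_ : CommRing R) (_ : Algebra k R)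
      (h : SchemeHomOver (specT k R) f') (ξ : RigidifiedLineBundle.Classes c ε (specT k R)),
        IsOpenImmersion h.1 ∧ x ∈ Set.range h.1.base ∧ S R h ξ := by
    intro x
    obtain ⟨i, hi⟩ := mem_range_j cov (p₂.1.base x)
    obtain ⟨R, iR, jR, h, hh, ⟨q, hq⟩, hsub⟩ :=
      exists_affine_nhd f' x (p₂.1 ⁻¹ᵁ (cov.j i).opensRange) hi
    obtain ⟨P, hP⟩ := exists_point_of_range cov (homComp h p₂) (i := i) (by
      rintro _ ⟨z, rfl⟩
      exact hsub ⟨z, rfl⟩)
    obtain ⟨r, hr, htriv⟩ := exists_evTrivial ((E R h).subPoint P) q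
    let φ := IsScalarTower.toAlgHom k R (Localization.Away r)
    obtain ⟨hP', ⟨g⟩⟩ := hE R (Localization.Away r) φ h P hP
    obtain ⟨ξ, hξ⟩ := exists_class cov _ (htriv _ g)
    have : IsOpenImmersion (specMapOver φ).1 :=
      IsOpenImmersion.of_isLocalization (S := Localization.Away r) r
    refine ⟨Localization.Away r, inferInstance, inferInstance, homComp (specMapOver φ) h, ξ,
      inferInstanceAs (IsOpenImmersion ((specMapOver φ).1 ≫ h.1)), ?_, _, hP', hξ⟩
    obtain ⟨q', hq'⟩ : q ∈
        Set.range (PrimeSpectrum.comap (algebraMap R (Localization.Away r))) := by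
      rw [PrimeSpectrum.localization_away_comap_range (Localization.Away r) r]
      exact hr
    exact ⟨q', by rw [← hq, ← hq']; rfl⟩
  obtain ⟨y', hy'⟩ := exists_class_of_local (affineRigid cov) f' S hmap huniq hloc
  have : IsProper f' := MorphismProperty.comp_mem @IsProper _ _ inferInstance inferInstance
  have : Smooth f' := MorphismProperty.comp_mem @Smooth _ _ inferInstance inferInstance
  have : GeometricallyIntegral f' := geometricallyIntegral_fst_comp f c
  have hfield : ∀ (K : Type u) [Field K] [IsAlgClosed K] [Algebra k K]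
      (h : SchemeHomOver (specT k K) f')
      (P : (i : Fin 2) × (cov.D.A K i →ₐ[K] K)), pointMor cov P = homComp h p₂ →
      (secOf cov (RigidifiedLineBundle.classesMap h y')).Isomorphic ((E K h).subPoint P) := by
    intro K _ _ _ h P hP
    obtain ⟨ξ, hξ⟩ := exists_class cov ((E K h).subPoint P) (LB.evTrivial _)
    rw [hy' K h ξ ⟨P, hP, hξ⟩]
    exact hξ
  refine ⟨_, f', inferInstance, inferInstance, inferInstance, y', fun K _ _ _ s => ?_,
    fun K _ _ _ NK g l hl => ?_⟩
  · obtain ⟨P, hP⟩ := exists_point cov (homComp s p₂)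
    rw [LB.deg_congr (hfield K s P hP), LB.deg_subPoint, hdeg K (homComp s p₁)]
    push_cast
    ring
  · obtain rfl | ⟨l', P, rfl⟩ := l.eq_nil_or_concat
    · simp at hl
    obtain ⟨s', hs'⟩ := hsurj K NK g l' (by simpa using hl)
    let s : SchemeHomOver (specT k K) f' :=
      ⟨pullback.lift s'.1 (pointMor cov P).1 (by rw [s'.2, (pointMor cov P).2]), by
        simp only [f', pullback.lift_fst_assoc, s'.2]⟩
    refine ⟨s, (hfield K s P (Subtype.ext (pullback.lift_snd _ _ _).symm)).trans ?_⟩
    have h1 : (NK.subPoints (l'.concat P)) = (NK.subPoints l').subPoint P := by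
      simp [LB.subPoints]
    rw [h1]
    refine LB.isomorphic_subPoints ?_ [P]
    show (secOf cov (RigidifiedLineBundle.classesMap (homComp s p₁) y)).Isomorphic _
    rw [classesMap_congr (g' := s') (pullback.lift_fst _ _ _)]
    exact hs'

theorem hasFamily (N : LB cov.D k) (m : ℕ) : HasFamily cov N m := by
  induction m with
  | zero => exact hasFamily_zero cov N
  | succ m ih => exact hasFamily_succ cov ih

end Fermat.Agent.Jac.Abel

end
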