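import Fermat.Agent.Jac.Scheme.Classes
import Fermat.Agent.Jac.Scheme.Sections

/-!
# Gluing rigidified classes from data on affine schemes

Compatible classes given on affine test schemes and existing locally glue to a class.
-/

set_option autoImplicit false

universe u

noncomputable section

open CategoryTheory CategoryTheory.Limits AlgebraicGeometry AlgebraicGeometry.RelPicard
  NeronModelInfra

namespace Fermat.Agent.Jac.Abel

variable {k : Type u} [Field k] {C : Scheme.{u}} {c : C ⟶ Spec (CommRingCat.of k)}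
  {ε : SchemeHomOver (𝟙 (Spec (CommRingCat.of k))) c}

theorem classesMap_congr {T T' : Scheme.{u}} {t : T ⟶ Spec (CommRingCat.of k)}
    {t' : T' ⟶ Spec (CommRingCat.of k)} {g g' : SchemeHomOver t' t} (h : g.1 = g'.1)
    (x : RigidifiedLineBundle.Classes c ε t) :
    RigidifiedLineBundle.classesMap g x = RigidifiedLineBundle.classesMap g' x := by
  rw [Subtype.ext h]

/-- Pull-back of rigidified classes is functorial. -/
theorem classesMap_comp {T T' T'' : Scheme.{u}} {t : T ⟶ Spec (CommRingCat.of k)}
    {t' : T' ⟶ Spec (CommRingCat.of k)} {t'' : T'' ⟶ Spec (CommRingCat.of k)}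
    (h : SchemeHomOver t'' t') (g : SchemeHomOver t' t) (x : RigidifiedLineBundle.Classes c ε t) :
    RigidifiedLineBundle.classesMap h (RigidifiedLineBundle.classesMap g x) =
      RigidifiedLineBundle.classesMap (homComp h g) x := by
  induction x using Quotient.ind with
  | _ M =>
    exact Quotient.sound
      ⟨(Scheme.Modules.pullbackComp _ _).app M.L ≪≫
        (Scheme.Modules.pullbackCongr (baseChangeSnd_comp c g h)).app M.L⟩

theorem classesMap_id {T : Scheme.{u}} {t : T ⟶ Spec (CommRingCat.of k)}
    (x : RigidifiedLineBundle.Classes c ε t) :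
    RigidifiedLineBundle.classesMap (⟨𝟙 T, Category.id_comp t⟩ : SchemeHomOver t t) x = x := by
  induction x using Quotient.ind with
  | _ M =>
    exact Quotient.sound
      ⟨(Scheme.Modules.pullbackCongr (baseChangeSnd_id c t)).app M.L ≪≫
        (Scheme.Modules.pullbackId (pullback c t)).app M.L⟩

theorem classesMap_injective {T T' : Scheme.{u}} {t : T ⟶ Spec (CommRingCat.of k)}
    {t' : T' ⟶ Spec (CommRingCat.of k)} (g : SchemeHomOver t' t) [IsIso g.1] :
    Function.Injective (RigidifiedLineBundle.classesMap (c := c) (ε := ε) g) := by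
  intro x y h
  let g' : SchemeHomOver t t' := ⟨inv g.1, by rw [IsIso.inv_comp_eq]; exact g.2.symm⟩
  have h1 := congrArg (RigidifiedLineBundle.classesMap g') h
  rwa [classesMap_comp, classesMap_comp,
    classesMap_congr (g' := ⟨𝟙 T, Category.id_comp t⟩) (IsIso.inv_hom_id g.1), classesMap_id,
    classesMap_congr (g' := ⟨𝟙 T, Category.id_comp t⟩) (IsIso.inv_hom_id g.1), classesMap_id] at h1

/-- An affine open chart around a point, with its algebra structure. -/
theorem exists_affine_nhd {T : Scheme.{u}} (t : T ⟶ Spec (CommRingCat.of k)) (x : T) (U : T.Opens)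
    (hx : x ∈ U) : ∃ (R : Type u) (_ : CommRing R) (_ : Algebra k R)
      (h : SchemeHomOver (specT k R) t),
      IsOpenImmersion h.1 ∧ x ∈ Set.range h.1.base ∧ Set.range h.1.base ⊆ U := by
  obtain ⟨V, hV, hxV, hVU⟩ := exists_isAffineOpen_mem_and_subset hx
  let : Algebra k Γ(T, V) := (Spec.preimage (hV.fromSpec ≫ t)).hom.toAlgebra
  refine ⟨Γ(T, V), inferInstance, inferInstance, ⟨hV.fromSpec, (Spec.map_preimage _).symm⟩,
    inferInstanceAs (IsOpenImmersion hV.fromSpec), ?_, ?_⟩
  · exact hV.range_fromSpec.symm ▸ hxV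
  · exact hV.range_fromSpec.symm ▸ hVU

/-- Two admissible classes agree wherever their charts agree. -/
private theorem classesMap_eq_of_admissible (hrigid : AffineRigid c ε) {T : Scheme.{u}}
    {t : T ⟶ Spec (CommRingCat.of k)} (S : ∀ (R : Type u) [CommRing R] [Algebra k R],
      SchemeHomOver (specT k R) t → RigidifiedLineBundle.Classes c ε (specT k R) → Prop)
    (hmap : ∀ (R R' : Type u) [CommRing R] [Algebra k R] [CommRing R'] [Algebra k R']
      (φ : R →ₐ[k] R')
      (h : SchemeHomOver (specT k R) t) (ξ : RigidifiedLineBundle.Classes c ε (specT k R)),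
        S R h ξ →
        S R' (homComp (specMapOver φ) h) (RigidifiedLineBundle.classesMap (specMapOver φ) ξ))
    (huniq : ∀ (R : Type u) [CommRing R] [Algebra k R] (h : SchemeHomOver (specT k R) t)
      (ξ ξ' : RigidifiedLineBundle.Classes c ε (specT k R)), S R h ξ → S R h ξ' → ξ = ξ')
    {T' : Scheme.{u}} {t' : T' ⟶ Spec (CommRingCat.of k)} (R R' : Type u) [CommRing R]
    [Algebra k R] [CommRing R'] [Algebra k R'] (h : SchemeHomOver (specT k R) t)
    (h' : SchemeHomOver (specT k R') t) (a : SchemeHomOver t' (specT k R))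
    (b : SchemeHomOver t' (specT k R')) (ξ : RigidifiedLineBundle.Classes c ε (specT k R))
    (ξ' : RigidifiedLineBundle.Classes c ε (specT k R')) (hab : a.1 ≫ h.1 = b.1 ≫ h'.1)
    (hS : S R h ξ) (hS' : S R' h' ξ') :
    RigidifiedLineBundle.classesMap a ξ = RigidifiedLineBundle.classesMap b ξ' := by
  choose Q iQ jQ g hg hmem _ using fun w : T' => exists_affine_nhd t' w ⊤ trivial
  refine classes_eq_of_locally hrigid (fun w => (g w).1.opensRange (H := hg w)) ?_ _ _ fun w => ?_
  · exact eq_top_iff.mpr fun z _ => TopologicalSpace.Opens.mem_iSup.mpr ⟨z, hmem z⟩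
  let := iQ w
  let := jQ w
  have := hg w
  let e : SchemeHomOver (specT k (Q w)) ((g w).1.opensRange.ι ≫ t') :=
    ⟨(g w).1.isoOpensRange.hom, by
      rw [← Category.assoc, Scheme.Hom.isoOpensRange_hom_ι]; exact (g w).2⟩
  have : IsIso e.1 := inferInstanceAs (IsIso (g w).1.isoOpensRange.hom)
  apply classesMap_injective e
  obtain ⟨φ, hφ⟩ := exists_eq_specMapOver (homComp (homComp e (openHom t' _)) a)
  obtain ⟨ψ, hψ⟩ := exists_eq_specMapOver (homComp (homComp e (openHom t' _)) b)
  rw [classesMap_comp, classesMap_comp, classesMap_comp, classesMap_comp, hφ, hψ]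
  have hh : (homComp (specMapOver ψ) h').1 = (homComp (specMapOver φ) h).1 := by
    rw [← hφ, ← hψ]
    simp only [homComp, Category.assoc, hab]
  exact huniq (Q w) _ _ _ (hmap R (Q w) φ h ξ hS)
    (Subtype.ext hh ▸ hmap R' (Q w) ψ h' ξ' hS')

/-- **Compatible classes on affine test schemes which exist locally glue.** -/
theorem exists_class_of_local (hrigid : AffineRigid c ε) {T : Scheme.{u}}
    (t : T ⟶ Spec (CommRingCat.of k)) (S : ∀ (R : Type u) [CommRing R] [Algebra k R],
      SchemeHomOver (specT k R) t → RigidifiedLineBundle.Classes c ε (specT k R) → Prop)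
    (hmap : ∀ (R R' : Type u) [CommRing R] [Algebra k R] [CommRing R'] [Algebra k R']
      (φ : R →ₐ[k] R')
      (h : SchemeHomOver (specT k R) t) (ξ : RigidifiedLineBundle.Classes c ε (specT k R)),
        S R h ξ →
        S R' (homComp (specMapOver φ) h) (RigidifiedLineBundle.classesMap (specMapOver φ) ξ))
    (huniq : ∀ (R : Type u) [CommRing R] [Algebra k R] (h : SchemeHomOver (specT k R) t)
      (ξ ξ' : RigidifiedLineBundle.Classes c ε (specT k R)), S R h ξ → S R h ξ' → ξ = ξ')
    (hloc : ∀ x : T, ∃ (R : Type u) (_ : CommRing R) (_ : Algebra k R)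
      (h : SchemeHomOver (specT k R) t)
      (ξ : RigidifiedLineBundle.Classes c ε (specT k R)),
        IsOpenImmersion h.1 ∧ x ∈ Set.range h.1.base ∧ S R h ξ) :
    ∃ y : RigidifiedLineBundle.Classes c ε t,
      ∀ (R : Type u) [CommRing R] [Algebra k R] (h : SchemeHomOver (specT k R) t)
        (ξ : RigidifiedLineBundle.Classes c ε (specT k R)),
        S R h ξ → RigidifiedLineBundle.classesMap h y = ξ := by
  -- glue the admissible classes on the charts `U x`
  choose R iR jR h ξ hh hmem hS using hloc
  let U : T → T.Opens := fun x => (h x).1.opensRange (H := hh x)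
  have hU : (⨆ x, U x) = ⊤ :=
    eq_top_iff.mpr fun z _ => TopologicalSpace.Opens.mem_iSup.mpr ⟨z, hmem z⟩
  let lf : ∀ x, SchemeHomOver ((U x).ι ≫ t) (@specT k _ (R x) (iR x) (jR x)) := fun x =>
    haveI := hh x
    ⟨(h x).1.isoOpensRange.inv, by
      rw [← Scheme.Hom.isoOpensRange_inv_comp, Category.assoc]; exact congrArg _ (h x).2.symm⟩
  have hlf : ∀ x, (lf x).1 ≫ (h x).1 = (U x).ι := fun x => by
    have := hh x
    exact Scheme.Hom.isoOpensRange_inv_comp (h x).1
  obtain ⟨y, hy⟩ := exists_classes_glue hrigid U hU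
    (fun x => RigidifiedLineBundle.classesMap (lf x) (ξ x)) (by
      intro x x' T' t' a a' haa'
      let := iR x; let := jR x; let := iR x'; let := jR x'
      rw [classesMap_comp, classesMap_comp]
      refine classesMap_eq_of_admissible hrigid S hmap huniq (R x) (R x') (h x) (h x') _ _ _ _ ?_
        (hS x) (hS x')
      simp only [homComp, Category.assoc, hlf]
      exact haa')
  -- the result induces every admissible class
  refine ⟨y, fun Q _ _ g η hη => classes_eq_of_locally hrigid (fun x => g.1 ⁻¹ᵁ U x) ?_ _ _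
    fun x => ?_⟩
  · rw [← Scheme.Hom.preimage_iSup, hU, Scheme.Hom.preimage_top]
  let := iR x; let := jR x
  let r : SchemeHomOver ((g.1 ⁻¹ᵁ U x).ι ≫ specT k Q) ((U x).ι ≫ t) :=
    ⟨g.1 ∣_ U x, by rw [← Category.assoc, morphismRestrict_ι, Category.assoc, g.2]⟩
  rw [classesMap_comp,
    classesMap_congr (g' := homComp r (openHom t (U x))) (morphismRestrict_ι g.1 (U x)).symm,
    ← classesMap_comp, hy x, classesMap_comp]
  refine (classesMap_eq_of_admissible hrigid S hmap huniq Q (R x) g (h x) (openHom _ _)
    (homComp r (lf x)) η (ξ x) ?_ hη (hS x)).symm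
  simp only [openHom, homComp, Category.assoc, hlf]
  exact (morphismRestrict_ι g.1 (U x)).symm

end Fermat.Agent.Jac.Abel

end
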