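import Fermat.Agent.Jac.Scheme.Abel.Family

/-!
# The rigidified Abel-Jacobi family
-/

set_option autoImplicit false

universe u

noncomputable section

open CategoryTheory CategoryTheory.Limits AlgebraicGeometry AlgebraicGeometry.RelPicard
  NeronModelInfra
  TensorProduct

namespace Fermat.Agent.Jac

variable {k : Type u} [Field k] {C : Scheme.{u}} {c : C ⟶ Spec (CommRingCat.of k)}
  {ε : SchemeHomOver (𝟙 (Spec (CommRingCat.of k))) c}

theorem Abel.secOf_classesMap (cov : CurveCover c ε) {T : Scheme.{u}}
    {t : T ⟶ Spec (CommRingCat.of k)} {R : Type u} [CommRing R] [Algebra k R]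
    (s : SchemeHomOver (specT k R) t) (M : RigidifiedLineBundle c ε t) :
    (Abel.secOf cov (RigidifiedLineBundle.classesMap s (Quotient.mk _ M))).Isomorphic
      (cov.sec ((Scheme.Modules.pullback (baseChangeSnd c s)).obj M.L)
        (M.isInvertible.pullback _)) :=
  Abel.secOf_mk cov (M.pullbackAlong s)

variable [IsAlgClosed k] [IsProper c] [SmoothOfRelativeDimension 1 c] [IsIntegral C]

namespace CurveCover

variable (cov : CurveCover c ε)

/-- A proper, geometrically integral family of rigidified bundles of degree zero through which every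
bundle of degree zero passes, with a point where the bundle is trivial. -/
theorem exists_rigidifiedFamily :
    ∃ (F : Scheme.{u}) (f : F ⟶ Spec (CommRingCat.of k)) (_ : IsProper f) (_ : Smooth f)
      (_ : GeometricallyIntegral f) (M : RigidifiedLineBundle c ε f)
      (t₀ : SchemeHomOver (𝟙 (Spec (CommRingCat.of k))) f),
      cov.DegZero f M.L M.isInvertible ∧
      Nonempty ((M.pullbackAlong t₀).L ≅
        SheafOfModules.unit (pullback c (𝟙 (Spec (CommRingCat.of k)))).ringCatSheaf) ∧
      ∀ (K : Type u) [Field K] [IsAlgClosed K] [Algebra k K] (N : LB cov.D K), N.deg = 0 →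
        ∃ s : SchemeHomOver (specT k K) f,
          (cov.sec ((Scheme.Modules.pullback (baseChangeSnd c s)).obj M.L)
            (M.isInvertible.pullback _)).Isomorphic
            N := by
  obtain ⟨n, l, N, -, hN, -⟩ := exists_chart (D := cov.D) (LB.unit k) LB.deg_unit
  obtain ⟨F, f, hfp, hfs, hfg, y, hdeg, hsurj⟩ := Abel.hasFamily cov N cov.D.genus
  obtain ⟨M, rfl⟩ := Quotient.exists_rep y
  have hpt : ∀ (K : Type u) [Field K] [IsAlgClosed K] [Algebra k K] (N' : LB cov.D K), N'.deg = 0 →
      ∃ s : SchemeHomOver (specT k K) f,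
        (Abel.secOf cov (RigidifiedLineBundle.classesMap s (Quotient.mk _ M))).Isomorphic N' := by
    intro K _ _ _ N' hN'
    let g := N.toBaseChange (Algebra.ofId k K)
    obtain ⟨l, hl, e⟩ := LB.exists_subPoints_of_deg N' (N.baseChange (Algebra.ofId k K)) hN'
      ((Abel.deg_map cov g).trans hN)
    obtain ⟨s, hs⟩ := hsurj K _ g l hl
    exact ⟨s, hs.trans e.symm⟩
  obtain ⟨s₀, hs₀⟩ := hpt k (LB.unit k) LB.deg_unit
  have hid : specT k k = 𝟙 (Spec (CommRingCat.of k)) := by
    simp only [specT, Algebra.algebraMap_self]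
    exact Spec.map_id _
  let e : SchemeHomOver (𝟙 (Spec (CommRingCat.of k))) (specT k k) :=
    ⟨𝟙 _, by rw [hid, Category.comp_id]⟩
  refine ⟨F, f, hfp, hfs, hfg, M, homComp e s₀, fun K _ _ _ s => ?_, ?_, fun K _ _ _ N' hN' => ?_⟩
  · rw [← LB.deg_congr (Abel.secOf_classesMap cov s M), hdeg K s, hN, sub_self]
  · have h1 : RigidifiedLineBundle.classesMap s₀ (Quotient.mk _ M) =
        (Quotient.mk _ (RigidifiedLineBundle.unit (c := c) (ε := ε) (specT k k)) :
          RigidifiedLineBundle.Classes c ε (specT k k)) :=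
      Abel.secOf_inj cov (hs₀.trans (cov.sec_unit.symm.trans
        (Abel.secOf_mk cov (RigidifiedLineBundle.unit (c := c) (ε := ε) (specT k k))).symm))
    have h2 := congrArg (RigidifiedLineBundle.classesMap e) h1
    rw [Abel.classesMap_comp] at h2
    exact ⟨(Quotient.exact h2).some ≪≫ Scheme.Modules.pullbackUnitIso _⟩
  · obtain ⟨s, hs⟩ := hpt K N' hN'
    exact ⟨s, (Abel.secOf_classesMap cov s M).symm.trans hs⟩

end CurveCover

end Fermat.Agent.Jac

end
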